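import Mathlib
import Fermat.Prelude.Def_EllipticCurve_FrobeniusTrace

/-!
Existence of Frobenius elements in `Gal(ℚ̄/ℚ)` at every valuation subring of `ℚ̄` lying over a prime.
-/

set_option autoImplicit false

namespace Fermat.Agent.Lib.Frob

open Polynomial Finset

section Fractions

variable {L : Type*} [Field L]


theorem isIntegral_int_of_forall_mem_valuationSubring (x : L)
    (h : ∀ V : ValuationSubring L, x ∈ V) : IsIntegral ℤ x := by
  by_contra hx
  have hx' : x ∉ (integralClosure ℤ L).toSubring := hx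
  obtain ⟨V, -, hV⟩ := Subring.exists_le_valuationSubring_of_isIntegrallyClosedIn hx'
  exact hV (h V)

theorem exists_integral_frac [CharZero L] (A : ValuationSubring L) {ℓ : ℕ} (hℓ : ℓ.Prime)
    (hA : (ℓ : L) ∈ A.nonunits) {a : L} (ha : a ∈ A) (halg : IsAlgebraic ℤ a) :
    ∃ b s : L, IsIntegral ℤ b ∧ IsIntegral ℤ s ∧ s ∉ A.nonunits ∧ a * s = b := by
  obtain ⟨f, hf0, hfa⟩ := halg
  set p := f.primPart with hp
  have hpa : aeval a p = 0 := by
    have h1 := f.eq_C_content_mul_primPart
    rw [h1, map_mul, aeval_C] at hfa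
    rcases mul_eq_zero.mp hfa with h2 | h2
    · exfalso
      have : f.content = 0 := by
        have h3 : ((f.content : ℤ) : L) = 0 := by simpa using h2
        exact_mod_cast h3
      exact hf0 (Polynomial.content_eq_zero_iff.mp this)
    · exact h2
  have hprim : p.IsPrimitive := f.isPrimitive_primPart
  have hex : ∃ i, i ≤ p.natDegree ∧ ¬ (ℓ : ℤ) ∣ p.coeff i := by
    by_contra hcon
    push Not at hcon
    have h1 : C (ℓ : ℤ) ∣ p := by
      rw [Polynomial.C_dvd_iff_dvd_coeff]
      intro i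
      by_cases hi : i ≤ p.natDegree
      · exact hcon i hi
      · rw [Polynomial.coeff_eq_zero_of_natDegree_lt (not_le.mp hi)]; exact dvd_zero _
    have h2 := hprim _ h1
    have h3 : (ℓ : ℤ).natAbs = 1 := Int.isUnit_iff_natAbs_eq.mp h2
    simp at h3
    exact hℓ.one_lt.ne' h3
  obtain ⟨i0, hi0, hi0'⟩ := hex
  set n := p.natDegree with hn
  let P : ℕ → Prop := fun i => ¬ (ℓ : ℤ) ∣ p.coeff i
  set j := Nat.findGreatest P n with hj
  have hjP : ¬ (ℓ : ℤ) ∣ p.coeff j := Nat.findGreatest_spec (P := P) hi0 hi0'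
  have hjle : j ≤ n := Nat.findGreatest_le _
  have hjmax : ∀ i, j < i → (ℓ : ℤ) ∣ p.coeff i := by
    intro i hi
    by_cases hin : i ≤ n
    · by_contra hc; exact Nat.findGreatest_is_greatest hi hin hc
    · rw [coeff_eq_zero_of_natDegree_lt (not_le.mp hin)]; exact dvd_zero _
  set y : L := ∑ i ∈ Finset.Ico j (n+1), (p.coeff i : L) * a ^ (i - j) with hy
  -- F1
  have hF1 : a ^ j * y = - ∑ i ∈ Finset.range j, (p.coeff i : L) * a ^ i := by
    rw [aeval_eq_sum_range, ← Finset.sum_range_add_sum_Ico _ (Nat.le_succ_of_le hjle)] at hpa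
    rw [eq_neg_iff_add_eq_zero, add_comm, ← hpa, hy, Finset.mul_sum]
    congr 1
    · apply Finset.sum_congr rfl; intro i _; rw [zsmul_eq_mul]
    · apply Finset.sum_congr rfl
      intro i hi
      rw [Finset.mem_Ico] at hi
      rw [zsmul_eq_mul, mul_left_comm, ← pow_add, Nat.add_sub_cancel' hi.1]
  -- integers lie in every valuation subring
  have hint : ∀ (V : ValuationSubring L) (c : ℤ), (c : L) ∈ V := fun V c => intCast_mem V c
  -- F2
  have hcj : (p.coeff j : L) ∉ A.nonunits := by
    intro hc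
    have hcop : IsCoprime (p.coeff j) (ℓ : ℤ) := by
      rw [isCoprime_comm]
      exact (Int.isCoprime_iff_gcd_eq_one).mpr
        ((Nat.Prime.coprime_iff_not_dvd hℓ).mpr (fun h => hjP (Int.natCast_dvd.mpr h)))
    obtain ⟨u, v, huv⟩ := hcop
    have h1 : ((u * p.coeff j + v * (ℓ : ℤ) : ℤ) : L) ∈ A.nonunits := by
      push_cast
      refine add_mem ?_ ?_
      · rw [← zsmul_eq_mul]; exact zsmul_mem hc u
      · rw [← zsmul_eq_mul]; exact zsmul_mem hA v
    rw [huv, Int.cast_one, A.mem_nonunits_iff, map_one] at h1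
    exact lt_irrefl _ h1
  have hyA : y ∉ A.nonunits := by
    intro hyn
    apply hcj
    have h1 : y = (p.coeff j : L) + ∑ i ∈ Finset.Ico (j+1) (n+1), (p.coeff i : L) * a ^ (i - j) := by
      rw [hy, Finset.sum_eq_sum_Ico_succ_bot (Nat.lt_succ_of_le hjle), Nat.sub_self, pow_zero,
        mul_one]
    have h2 : ∑ i ∈ Finset.Ico (j+1) (n+1), (p.coeff i : L) * a ^ (i - j) ∈ A.nonunits := by
      refine sum_mem ?_
      intro i hi
      rw [Finset.mem_Ico] at hi
      obtain ⟨c, hc⟩ := hjmax i hi.1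
      rw [A.mem_nonunits_iff, hc]
      push_cast
      rw [map_mul, map_mul, map_pow]
      have h3 : A.valuation (ℓ : L) < 1 := A.mem_nonunits_iff.mp hA
      have h4 : A.valuation (c : L) ≤ 1 := (A.valuation_le_one_iff _).mpr (hint A c)
      have h5 : A.valuation a ≤ 1 := (A.valuation_le_one_iff _).mpr ha
      calc A.valuation (ℓ : L) * A.valuation (c : L) * A.valuation a ^ (i - j)
          ≤ A.valuation (ℓ : L) * 1 * 1 := by
            gcongr
            exact pow_le_one' h5 _
        _ < 1 := by simpa using h3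
    have h3 : (p.coeff j : L) = y - ∑ i ∈ Finset.Ico (j+1) (n+1), (p.coeff i : L) * a ^ (i - j) := by
      rw [h1]; ring
    rw [h3]
    exact sub_mem hyn h2
  -- F3
  have hF3 : ∀ V : ValuationSubring L, y ∈ V ∧ a * y ∈ V := by
    intro V
    by_cases haV : a ∈ V
    · have hyV : y ∈ V := by
        refine sum_mem ?_
        intro i _
        exact mul_mem (hint V _) (pow_mem haV _)
      exact ⟨hyV, mul_mem haV hyV⟩
    · have hinv : a⁻¹ ∈ V := (V.mem_or_inv_mem a).resolve_left haV
      have ha0 : a ≠ 0 := fun h => haV (h ▸ V.zero_mem)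
      have hy' : y = - ∑ i ∈ Finset.range j, (p.coeff i : L) * a⁻¹ ^ (j - i) := by
        apply mul_left_cancel₀ (pow_ne_zero j ha0)
        rw [hF1, mul_neg, Finset.mul_sum]
        congr 1
        apply Finset.sum_congr rfl
        intro i hi
        rw [Finset.mem_range] at hi
        have h1 : a ^ j = a ^ i * a ^ (j - i) := by rw [← pow_add, Nat.add_sub_cancel' hi.le]
        rw [h1, inv_pow]
        field_simp
      have hay' : a * y = - ∑ i ∈ Finset.range j, (p.coeff i : L) * a⁻¹ ^ (j - i - 1) := by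
        rw [hy', mul_neg, Finset.mul_sum]
        congr 1
        apply Finset.sum_congr rfl
        intro i hi
        rw [Finset.mem_range] at hi
        have h1 : j - i = (j - i - 1) + 1 := by omega
        conv_lhs => rw [h1, pow_succ]
        field_simp
      constructor
      · rw [hy']; exact neg_mem (sum_mem fun i _ => mul_mem (hint V _) (pow_mem hinv _))
      · rw [hay']; exact neg_mem (sum_mem fun i _ => mul_mem (hint V _) (pow_mem hinv _))
  refine ⟨a * y, y, ?_, ?_, hyA, rfl⟩
  · exact isIntegral_int_of_forall_mem_valuationSubring _ fun V => (hF3 V).2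
  · exact isIntegral_int_of_forall_mem_valuationSubring _ fun V => (hF3 V).1


end Fractions

section Main

open scoped Pointwise

theorem isAlgebraic_QQbar : Algebra.IsAlgebraic ℚ (AlgebraicClosure ℚ) :=
  AlgebraicClosure.isAlgebraic ℚ

attribute [local instance] isAlgebraic_QQbar

theorem isAlgClosure_QQbar : IsAlgClosure ℚ (AlgebraicClosure ℚ) :=
  ⟨inferInstance, inferInstance⟩

attribute [local instance] isAlgClosure_QQbar

/-- the ring of all algebraic integers -/
noncomputable abbrev Zbar : Subalgebra ℤ (AlgebraicClosure ℚ) :=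
  integralClosure ℤ (AlgebraicClosure ℚ)

/-- the absolute Galois group of `ℚ` -/
abbrev GQ : Type := AlgebraicClosure ℚ ≃ₐ[ℚ] AlgebraicClosure ℚ

/-- shortcut instance -/
@[instance_reducible]
noncomputable def msaZbar : MulSemiringAction GQ Zbar := inferInstance

attribute [local instance] msaZbar

/-- shortcut instance -/
@[instance_reducible]
noncomputable def maIdealZbar : MulAction GQ (Ideal Zbar) :=
  Ideal.pointwiseDistribMulAction.toMulAction

attribute [local instance] maIdealZbar

/-- discrete topology on the algebraic integers -/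
@[instance_reducible]
def topZbar : TopologicalSpace Zbar := ⊥

attribute [local instance] topZbar

theorem discreteTopology_Zbar : DiscreteTopology Zbar := ⟨rfl⟩

attribute [local instance] discreteTopology_Zbar

theorem continuousSMul_Zbar : ContinuousSMul GQ Zbar := by
  rw [continuousSMul_iff_stabilizer_isOpen]
  intro x
  have h := stabilizer_isOpen_of_isIntegral (K := ℚ) (L := AlgebraicClosure ℚ)
    (x : AlgebraicClosure ℚ)
  convert h using 2
  ext g
  simp only [MulAction.mem_stabilizer_iff]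
  constructor
  · intro h1; exact congrArg Subtype.val h1
  · intro h1; exact Subtype.ext h1

theorem isInvariant_Zbar : Algebra.IsInvariant ℤ Zbar GQ := by
  refine ⟨fun b hb => ?_⟩
  have h1 : (b : AlgebraicClosure ℚ) ∈ Set.range (algebraMap ℚ (AlgebraicClosure ℚ)) := by
    rw [InfiniteGalois.mem_range_algebraMap_iff_fixed]
    intro f
    exact congrArg Subtype.val (hb f)
  obtain ⟨q, hq⟩ := h1
  have h2 : IsIntegral ℤ q := by
    have h3 : IsIntegral ℤ (algebraMap ℚ (AlgebraicClosure ℚ) q) := hq ▸ b.2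
    exact (isIntegral_algebraMap_iff (algebraMap ℚ (AlgebraicClosure ℚ)).injective).mp h3
  obtain ⟨z, hz⟩ := IsIntegrallyClosed.algebraMap_eq_of_integral h2
  refine ⟨z, Subtype.ext ?_⟩
  rw [← hq, ← hz]
  simp

attribute [local instance] continuousSMul_Zbar isInvariant_Zbar

variable (A : ValuationSubring (AlgebraicClosure ℚ))

theorem mem_of_isIntegral_int {x : AlgebraicClosure ℚ} (hx : IsIntegral ℤ x) : x ∈ A := by
  have h1 : IsIntegral A x := hx.tower_top
  obtain ⟨y, hy⟩ := IsIntegrallyClosed.algebraMap_eq_of_integral h1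
  rw [← hy]
  exact y.2

/-- inclusion of the algebraic integers in a valuation subring -/
noncomputable def incl : Zbar →+* A where
  toFun b := ⟨b.1, mem_of_isIntegral_int A b.2⟩
  map_one' := rfl
  map_mul' _ _ := rfl
  map_zero' := rfl
  map_add' _ _ := rfl

/-- the center of a valuation subring on the algebraic integers -/
noncomputable def center : Ideal Zbar := (IsLocalRing.maximalIdeal A).comap (incl A)

theorem mem_center {b : Zbar} : b ∈ center A ↔ (b : AlgebraicClosure ℚ) ∈ A.nonunits := by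
  rw [center, Ideal.mem_comap, ← A.coe_mem_nonunits_iff]
  rfl

instance center_isPrime : (center A).IsPrime := by
  unfold center; infer_instance

theorem span_isMaximal {ℓ : ℕ} (hℓ : ℓ.Prime) : (Ideal.span {(ℓ : ℤ)}).IsMaximal :=
  PrincipalIdealRing.isMaximal_of_irreducible (Nat.prime_iff_prime_int.mp hℓ).irreducible

theorem center_liesOver {ℓ : ℕ} (hℓ : ℓ.Prime) (hA : (ℓ : AlgebraicClosure ℚ) ∈ A.nonunits) :
    (center A).LiesOver (Ideal.span {(ℓ : ℤ)}) := by
  constructor
  refine (span_isMaximal hℓ).eq_of_le ?_ ?_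
  · intro h
    have h1 : (1 : ℤ) ∈ Ideal.under ℤ (center A) := h ▸ Submodule.mem_top
    rw [Ideal.under_def, Ideal.mem_comap, mem_center] at h1
    simp only [map_one] at h1
    have h2 := (A.mem_nonunits_iff).mp h1
    simp at h2
  · rw [Ideal.span_singleton_le_iff_mem, Ideal.under_def, Ideal.mem_comap, mem_center]
    simpa using hA

theorem center_isMaximal {ℓ : ℕ} (hℓ : ℓ.Prime) (hA : (ℓ : AlgebraicClosure ℚ) ∈ A.nonunits) :
    (center A).IsMaximal := by
  have h1 := (center_liesOver A hℓ hA).over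
  refine Ideal.isMaximal_of_isIntegral_of_isMaximal_comap (R := ℤ) (center A) ?_
  rw [← Ideal.under_def, ← h1]
  exact span_isMaximal hℓ

/-- Frobenius is bijective on a field of characteristic `ℓ` that is integral over `ℤ`. -/
theorem frobenius_bijective_of_integral (ℓ : ℕ) [Fact ℓ.Prime] {k : Type*} [Field k] [CharP k ℓ]
    (hint : ∀ x : k, IsIntegral ℤ x) : Function.Bijective (frobenius k ℓ) := by
  let _ := ZMod.algebra k ℓ
  have : Algebra.IsAlgebraic (ZMod ℓ) k := ⟨fun x => (hint x).tower_top.isAlgebraic⟩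
  have := Algebra.IsAlgebraic.perfectField (ZMod ℓ) (L := k)
  exact bijective_frobenius k ℓ

theorem mul_mem_nonunits {x y : AlgebraicClosure ℚ} (hx : x ∈ A) (hy : y ∈ A.nonunits) :
    x * y ∈ A.nonunits := by
  rw [A.mem_nonunits_iff] at hy ⊢
  rw [map_mul]
  have h1 := (A.valuation_le_one_iff x).mpr hx
  calc A.valuation x * A.valuation y ≤ 1 * A.valuation y := by gcongr
    _ = A.valuation y := one_mul _
    _ < 1 := hy

theorem valuation_eq_one_of_not_mem_nonunits {s : AlgebraicClosure ℚ} (hs : s ∈ A)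
    (hs' : s ∉ A.nonunits) : A.valuation s = 1 :=
  le_antisymm ((A.valuation_le_one_iff s).mpr hs)
    (not_lt.mp fun h => hs' (A.mem_nonunits_iff.mpr h))

theorem isAlgebraic_int (a : AlgebraicClosure ℚ) : IsAlgebraic ℤ a :=
  (IsFractionRing.isAlgebraic_iff ℤ ℚ (AlgebraicClosure ℚ)).mpr
    (Algebra.IsAlgebraic.isAlgebraic a)

theorem isIntegral_smul (g : GQ) {b : AlgebraicClosure ℚ} (hb : IsIntegral ℤ b) :
    IsIntegral ℤ (g • b) :=
  (g • (⟨b, hb⟩ : Zbar)).2

/-- elements of the stabilizer of the center send units of `A` that are integral to units -/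
theorem smul_not_mem_nonunits {g : GQ} (hg : g ∈ MulAction.stabilizer GQ (center A))
    {s : AlgebraicClosure ℚ} (hs : IsIntegral ℤ s) (hs' : s ∉ A.nonunits) :
    g • s ∉ A.nonunits := by
  intro h
  apply hs'
  have h1 : g • (⟨s, hs⟩ : Zbar) ∈ center A := by
    rw [mem_center]; exact h
  rw [MulAction.mem_stabilizer_iff] at hg
  rw [← hg, Ideal.smul_mem_pointwise_smul_iff] at h1
  exact (mem_center A).mp h1

/-- elements of the stabilizer of the center preserve `A` -/
theorem smul_mem_of_mem_stabilizer {ℓ : ℕ} (hℓ : ℓ.Prime)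
    (hA : (ℓ : AlgebraicClosure ℚ) ∈ A.nonunits) {g : GQ}
    (hg : g ∈ MulAction.stabilizer GQ (center A)) {a : AlgebraicClosure ℚ} (ha : a ∈ A) :
    g • a ∈ A := by
  obtain ⟨b, s, hb, hs, hs', hab⟩ := exists_integral_frac A hℓ hA ha (isAlgebraic_int a)
  have h1 : g • a * g • s = g • b := by rw [← smul_mul', hab]
  have h2 : g • b ∈ A := mem_of_isIntegral_int A (isIntegral_smul g hb)
  have h3 : g • s ∈ A := mem_of_isIntegral_int A (isIntegral_smul g hs)
  have h4 : A.valuation (g • s) = 1 :=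
    valuation_eq_one_of_not_mem_nonunits A h3 (smul_not_mem_nonunits A hg hs hs')
  have h5 : A.valuation (g • a) = A.valuation (g • b) := by
    rw [← h1, map_mul, h4, mul_one]
  rw [← A.valuation_le_one_iff, h5, A.valuation_le_one_iff]
  exact h2

/-- the stabilizer of the center is contained in the decomposition group -/
theorem mem_decompositionSubgroup_of_mem_stabilizer {ℓ : ℕ} (hℓ : ℓ.Prime)
    (hA : (ℓ : AlgebraicClosure ℚ) ∈ A.nonunits) {g : GQ}
    (hg : g ∈ MulAction.stabilizer GQ (center A)) : g ∈ A.decompositionSubgroup ℚ := by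
  rw [MulAction.mem_stabilizer_iff]
  ext x
  rw [ValuationSubring.mem_pointwise_smul_iff_inv_smul_mem]
  constructor
  · intro hx
    have h1 := smul_mem_of_mem_stabilizer A hℓ hA hg hx
    rwa [smul_inv_smul] at h1
  · intro hx
    exact smul_mem_of_mem_stabilizer A hℓ hA (inv_mem hg) hx

/-- **Existence of Frobenius elements**: for every valuation subring `A` of `ℚ̄` lying over a
prime `ℓ` there is `σ ∈ Gal(ℚ̄/ℚ)` which is a Frobenius element at `A`. -/
theorem exists_isFrobeniusAt {ℓ : ℕ} (hℓ : ℓ.Prime)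
    (hA : A.LiesOverPrime ℓ) : ∃ σ : GQ, A.IsFrobeniusAt σ ℓ := by
  have hA' : (ℓ : AlgebraicClosure ℚ) ∈ A.nonunits := hA
  haveI : Fact ℓ.Prime := ⟨hℓ⟩
  haveI hlo : (center A).LiesOver (Ideal.span {(ℓ : ℤ)}) := center_liesOver A hℓ hA'
  haveI hmax : (center A).IsMaximal := center_isMaximal A hℓ hA'
  letI : Field (Zbar ⧸ center A) := Ideal.Quotient.field (center A)
  haveI : CharP (Zbar ⧸ center A) ℓ := by
    rw [CharP.charP_iff_prime_eq_zero hℓ]
    have h1 : ((ℓ : Zbar) : Zbar ⧸ center A) = 0 := by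
      rw [Ideal.Quotient.eq_zero_iff_mem, mem_center]
      simpa using hA'
    simpa using h1
  have hint : ∀ x : Zbar ⧸ center A, IsIntegral ℤ x := by
    intro x
    obtain ⟨b, rfl⟩ := Ideal.Quotient.mk_surjective x
    have hb : IsIntegral ℤ b := integralClosure.isIntegral b
    exact hb.map (Ideal.Quotient.mkₐ ℤ (center A))
  have hbij := frobenius_bijective_of_integral ℓ hint
  let φ : (Zbar ⧸ center A) ≃ₐ[ℤ ⧸ Ideal.span {(ℓ : ℤ)}] (Zbar ⧸ center A) :=
    AlgEquiv.ofBijective
      { toRingHom := frobenius (Zbar ⧸ center A) ℓ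
        commutes' := by
          intro r
          obtain ⟨z, rfl⟩ := Ideal.Quotient.mk_surjective r
          rw [Ideal.Quotient.algebraMap_mk_of_liesOver]
          simp only [eq_intCast, map_intCast, RingHom.toMonoidHom_eq_coe, OneHom.toFun_eq_coe,
            MonoidHom.toOneHom_coe, MonoidHom.coe_coe] } hbij
  obtain ⟨⟨g, hg⟩, hgφ⟩ := Ideal.Quotient.stabilizerHom_surjective_of_profinite (G := GQ)
    (Ideal.span {(ℓ : ℤ)}) (center A) φ
  -- key congruence on algebraic integers
  have hK1 : ∀ b : AlgebraicClosure ℚ, IsIntegral ℤ b → g • b - b ^ ℓ ∈ A.nonunits := by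
    intro b hb
    have h1 := DFunLike.congr_fun hgφ (Ideal.Quotient.mk (center A) ⟨b, hb⟩)
    rw [Ideal.Quotient.stabilizerHom_apply] at h1
    have h2 : φ (Ideal.Quotient.mk (center A) ⟨b, hb⟩) =
        Ideal.Quotient.mk (center A) ((⟨b, hb⟩ : Zbar) ^ ℓ) := by
      rw [map_pow]; rfl
    rw [h2, Ideal.Quotient.eq, mem_center] at h1
    exact h1
  have hgD : g ∈ A.decompositionSubgroup ℚ :=
    mem_decompositionSubgroup_of_mem_stabilizer A hℓ hA' hg
  refine ⟨g, hgD, ?_⟩
  intro x
  obtain ⟨a, rfl⟩ := IsLocalRing.residue_surjective x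
  rw [← IsLocalRing.ResidueField.residue_smul, ← map_pow]
  rw [← sub_eq_zero, ← map_sub, IsLocalRing.residue_eq_zero_iff, ← A.coe_mem_nonunits_iff]
  change g • (a : AlgebraicClosure ℚ) - (a : AlgebraicClosure ℚ) ^ ℓ ∈ A.nonunits
  -- write a = b / s
  obtain ⟨b, s, hb, hs, hs', hab⟩ := exists_integral_frac A hℓ hA' a.2 (isAlgebraic_int a.1)
  have h3 : g • s ∈ A := mem_of_isIntegral_int A (isIntegral_smul g hs)
  have h4 : A.valuation (g • s) = 1 :=
    valuation_eq_one_of_not_mem_nonunits A h3 (smul_not_mem_nonunits A hg hs hs')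
  have h5 : (g • (a : AlgebraicClosure ℚ) - (a : AlgebraicClosure ℚ) ^ ℓ) * g • s =
      (g • b - b ^ ℓ) + (a : AlgebraicClosure ℚ) ^ ℓ * (-(g • s - s ^ ℓ)) := by
    rw [← hab, smul_mul', mul_pow]; ring
  have h6 : (g • (a : AlgebraicClosure ℚ) - (a : AlgebraicClosure ℚ) ^ ℓ) * g • s ∈ A.nonunits := by
    rw [h5]
    refine add_mem (hK1 b hb) (mul_mem_nonunits A (pow_mem a.2 ℓ) (neg_mem (hK1 s hs)))
  rw [A.mem_nonunits_iff, map_mul, h4, mul_one] at h6
  rw [A.mem_nonunits_iff]
  exact h6

/-- there is a valuation subring of `ℚ̄` over every prime -/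
theorem exists_liesOverPrime {ℓ : ℕ} (hℓ : ℓ.Prime) :
    ∃ A : ValuationSubring (AlgebraicClosure ℚ), A.LiesOverPrime ℓ := by
  let A0 : Subring (AlgebraicClosure ℚ) := (Int.castRingHom (AlgebraicClosure ℚ)).range
  let l0 : A0 := ⟨(ℓ : AlgebraicClosure ℚ), ⟨(ℓ : ℤ), by simp⟩⟩
  have hI : Ideal.span {l0} ≠ ⊤ := by
    intro h
    rw [Ideal.eq_top_iff_one, Ideal.mem_span_singleton'] at h
    obtain ⟨⟨c, z, hz⟩, hc⟩ := h
    have h1 : c * (ℓ : AlgebraicClosure ℚ) = 1 := congrArg Subtype.val hc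
    rw [← hz] at h1
    have h2 : z * (ℓ : ℤ) = 1 := by
      have : ((z * (ℓ : ℤ) : ℤ) : AlgebraicClosure ℚ) = ((1 : ℤ) : AlgebraicClosure ℚ) := by
        push_cast; simpa using h1
      exact_mod_cast this
    have h3 : IsUnit (ℓ : ℤ) := IsUnit.of_mul_eq_one z (by rw [mul_comm]; exact h2)
    have h4 : (ℓ : ℤ).natAbs = 1 := Int.isUnit_iff_natAbs_eq.mp h3
    simp at h4
    exact hℓ.one_lt.ne' h4
  obtain ⟨B, -, hB⟩ := Ideal.image_subset_nonunits_valuationSubring _ hI
  refine ⟨B, ?_⟩
  exact hB ⟨l0, Ideal.subset_span rfl, rfl⟩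

/-- **Frobenius elements exist at every prime.** -/
theorem exists_valuationSubring_isFrobeniusAt {ℓ : ℕ} (hℓ : ℓ.Prime) :
    ∃ A : ValuationSubring (AlgebraicClosure ℚ), A.LiesOverPrime ℓ ∧
      ∃ σ : AlgebraicClosure ℚ ≃ₐ[ℚ] AlgebraicClosure ℚ, A.IsFrobeniusAt σ ℓ := by
  obtain ⟨A, hA⟩ := exists_liesOverPrime hℓ
  exact ⟨A, hA, exists_isFrobeniusAt A hℓ hA⟩

end Main

end Fermat.Agent.Lib.Frob
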